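import Fermat.Agent.UnitSeries.Roth
import Fermat.Agent.EgyptianFractions.Main

/-!
# Cahen's constant

`∑ (-1) ^ k / (s k - 1) = ∑ 1 / s (2 k)` for Sylvester's sequence `s`, and
`9 (s 0 s 2 ⋯ s (2 k)) ^ 3 ≤ 16 (s (2 k + 2) - 1)`.
-/

set_option autoImplicit false

noncomputable section

open Filter Finset
open FA.EgyptianFractions

namespace FA.UnitSeries

/-- Cahen's constant. -/
def cahen : ℝ := ∑' k : ℕ, (-1 : ℝ) ^ k / ((sylvester k : ℝ) - 1)

theorem sylvester_succ_real (k : ℕ) :
    (sylvester (k + 1) : ℝ) - 1 = sylvester k * ((sylvester k : ℝ) - 1) := by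
  have h := two_le_sylvester k
  rw [sylvester]
  push_cast [Nat.cast_sub (show 1 ≤ sylvester k by omega)]
  ring

theorem prod_even_pow_le (k : ℕ) :
    9 * (1 + 2 / ((sylvester (2 * (k + 1)) : ℝ) - 1)) *
        ((∏ i ∈ range (k + 1), sylvester (2 * i) : ℕ) : ℝ) ^ 3 ≤
      16 * ((sylvester (2 * (k + 1)) : ℝ) - 1) ∧
      6 ≤ (sylvester (2 * (k + 1)) : ℝ) - 1 := by
  induction k with
  | zero => norm_num [sylvester]
  | succ k ih =>
    obtain ⟨h, h6⟩ := ih
    rw [prod_range_succ, Nat.cast_mul, mul_pow,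
      show 2 * (k + 1 + 1) = 2 * (k + 1) + 1 + 1 by ring, sylvester_succ_real]
    have e : (sylvester (2 * (k + 1) + 1) : ℝ) =
        1 + sylvester (2 * (k + 1)) * ((sylvester (2 * (k + 1)) : ℝ) - 1) := by
      linarith [sylvester_succ_real (2 * (k + 1))]
    rw [e]
    set P := ((∏ i ∈ range (k + 1), sylvester (2 * i) : ℕ) : ℝ)
    clear e
    generalize (sylvester (2 * (k + 1)) : ℝ) = s at h h6 ⊢
    obtain ⟨t, rfl⟩ : ∃ t, s = t + 1 := ⟨s - 1, by ring⟩
    simp only [add_sub_cancel_right] at h h6 ⊢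
    rw [show (1 + (t + 1) * t - 1 : ℝ) = (t + 1) * t by ring]
    set T := (1 + (t + 1) * t) * ((t + 1) * t) with hT
    have ht : 0 < t := by linarith
    have hT0 : t ^ 4 ≤ T := by rw [hT]; nlinarith [pow_nonneg ht.le 3, pow_nonneg ht.le 2]
    have hT6 : 216 * t ≤ t ^ 4 := by
      nlinarith [mul_le_mul h6 (mul_le_mul h6 h6 (by norm_num) ht.le) (by norm_num) ht.le]
    refine ⟨?_, by linarith⟩
    have hP : 0 ≤ P ^ 3 := pow_nonneg (Nat.cast_nonneg _) 3
    have h1 : (1 + 2 / T) * (t + 1) ^ 2 ≤ (1 + 2 / t) * (1 + (t + 1) * t) := by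
      have : 2 / T ≤ 2 / (216 * t) :=
        div_le_div_of_nonneg_left (by norm_num) (by linarith) (by linarith)
      refine (mul_le_mul_of_nonneg_right (add_le_add le_rfl this) (sq_nonneg _)).trans ?_
      field_simp
      nlinarith
    calc 9 * (1 + 2 / T) * (P ^ 3 * (t + 1) ^ 3)
        = 9 * P ^ 3 * (t + 1) * ((1 + 2 / T) * (t + 1) ^ 2) := by ring
      _ ≤ 9 * P ^ 3 * (t + 1) * ((1 + 2 / t) * (1 + (t + 1) * t)) :=
          mul_le_mul_of_nonneg_left h1 (by positivity)
      _ = 9 * (1 + 2 / t) * P ^ 3 * ((t + 1) * (1 + (t + 1) * t)) := by ring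
      _ ≤ 16 * t * ((t + 1) * (1 + (t + 1) * t)) :=
          mul_le_mul_of_nonneg_right h (by positivity)
      _ = 16 * T := by rw [hT]; ring

theorem growth (k : ℕ) :
    1 / 2 * ((∏ i ∈ range (k + 1), sylvester (2 * i) : ℕ) : ℝ) ^ (3 : ℝ) ≤
      sylvester (2 * (k + 1)) := by
  obtain ⟨h, h6⟩ := prod_even_pow_le k
  have h2 : 0 ≤ 2 / ((sylvester (2 * (k + 1)) : ℝ) - 1) := div_nonneg zero_le_two (by linarith)
  have hP := pow_nonneg (Nat.cast_nonneg (α := ℝ) (∏ i ∈ range (k + 1), sylvester (2 * i))) 3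
  rw [show (3 : ℝ) = ((3 : ℕ) : ℝ) by norm_num, Real.rpow_natCast]
  nlinarith

theorem summable_inv_sub_one :
    Summable fun k : ℕ => (-1 : ℝ) ^ k / ((sylvester k : ℝ) - 1) := by
  have hs : Summable fun k : ℕ => 1 / (sylvester k : ℝ) :=
    summable_of_sum_range_le (c := 1) (fun k => by positivity) fun n => by
      rw [sum_sylvester]
      exact sub_le_self _ (by positivity)
  refine (hs.mul_left 2).of_norm_bounded fun k => ?_
  have h : (2 : ℝ) ≤ sylvester k := by exact_mod_cast two_le_sylvester k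
  rw [norm_div, norm_pow, norm_neg, norm_one, one_pow, Real.norm_eq_abs,
    abs_of_pos (by linarith), mul_one_div, div_le_div_iff₀ (by linarith) (by linarith)]
  linarith

theorem cahen_eq_tsum : cahen = ∑' k : ℕ, 1 / (sylvester (2 * k) : ℝ) := by
  have h := summable_inv_sub_one
  have he := h.comp_injective (i := fun k : ℕ => 2 * k) fun a b hab => by simpa using hab
  have ho := h.comp_injective (i := fun k : ℕ => 2 * k + 1) fun a b hab => by simpa using hab
  rw [cahen, ← tsum_even_add_odd he ho]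
  simp only [Function.comp_def] at he ho
  rw [← he.tsum_add ho]
  refine tsum_congr fun k => ?_
  rw [pow_mul, neg_one_sq, one_pow, pow_succ, pow_mul, neg_one_sq, one_pow, one_mul,
    sylvester_succ_real]
  have h2 : (2 : ℝ) ≤ sylvester (2 * k) := by exact_mod_cast two_le_sylvester (2 * k)
  have : (sylvester (2 * k) : ℝ) - 1 ≠ 0 := by linarith
  field_simp
  ring

theorem liouvilleWith_cahen : LiouvilleWith 3 cahen := by
  rw [cahen_eq_tsum]
  exact (liouvilleWith_tsum (a := fun k => sylvester (2 * k))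
    (fun k => zero_lt_two.trans_le (two_le_sylvester _))
    (Eventually.of_forall fun k => two_le_sylvester _) (show (0 : ℝ) < 1 / 2 by norm_num)
    (show (1 : ℝ) < 3 by norm_num) (Eventually.of_forall growth)).2

theorem transcendental_cahen : Transcendental ℚ cahen :=
  transcendental_of_liouvilleWith (by norm_num) liouvilleWith_cahen

end FA.UnitSeries

end
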