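import Fermat.Agent.Root.SummaryRoth
import Mathlib.NumberTheory.Transcendental.Liouville.LiouvilleWith
import Mathlib.Analysis.SpecificLimits.Normed

/-!
# Series of unit fractions with fast growing denominators

If `c (a 0 ⋯ a k) ^ κ ≤ a (k + 1)` eventually, the partial sums have denominators `a 0 ⋯ a k` and
error `≤ 2 / a (k + 1)`. So for `κ > 2` the sum is transcendental by Roth's theorem.
-/

set_option autoImplicit false

noncomputable section

open Filter Finset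
open scoped Topology

namespace FA.UnitSeries

/-- Roth: an exponent above two gives transcendence. -/
theorem transcendental_of_liouvilleWith {α κ : ℝ} (hκ : 2 < κ) (h : LiouvilleWith κ α) :
    Transcendental ℚ α := by
  intro halg
  have hfin := (FA.Summary.roth_approximation halg (κ := (2 + κ) / 2) (by linarith)).sdiff
    (t := {x : ℚ | (x : ℝ) = α})
  obtain ⟨δ, hδ, hsep⟩ : ∃ δ > 0, ∀ x ∈ hfin.toFinset, δ ≤ |α - (x : ℝ)| := by
    rcases hfin.toFinset.eq_empty_or_nonempty with h0 | h0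
    · exact ⟨1, one_pos, fun x hx => absurd hx (by rw [h0]; exact notMem_empty x)⟩
    · obtain ⟨x, hx, hmin⟩ := hfin.toFinset.exists_min_image (fun x : ℚ => |α - (x : ℝ)|) h0
      exact ⟨_, abs_pos.2 (sub_ne_zero.2 fun e => (hfin.mem_toFinset.1 hx).2 e.symm), hmin⟩
  obtain ⟨n, ⟨m, hne, hlt⟩, hn, hnδ⟩ := ((h.frequently_lt_rpow_neg
    (show (2 + κ) / 2 < κ by linarith)).and_eventually ((eventually_gt_atTop 0).and
      (((tendsto_rpow_neg_atTop (show 0 < (2 + κ) / 2 by linarith)).comp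
        tendsto_natCast_atTop_atTop).eventually_lt_const hδ))).exists
  set x : ℚ := Rat.divInt m n with hx
  have hxR : (x : ℝ) = (m : ℝ) / n := by rw [hx, Rat.divInt_eq_div]; push_cast; rfl
  have hden : (x.den : ℝ) ≤ n :=
    Nat.cast_le.2 (Nat.le_of_dvd hn (Int.natCast_dvd_natCast.1 (Rat.den_dvd _ _)))
  have hlt' : |α - (x : ℝ)| < (x.den : ℝ) ^ (-((2 + κ) / 2)) := by
    rw [hxR]
    exact hlt.trans_le (Real.rpow_le_rpow_of_nonpos (Nat.cast_pos.2 x.den_pos) hden (by linarith))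
  refine (hsep x (hfin.mem_toFinset.2 ⟨hlt', fun e => hne (e.symm.trans hxR)⟩)).not_gt ?_
  rw [hxR]
  exact hlt.trans hnδ

variable {a : ℕ → ℕ} {c κ : ℝ}

/-- The product times the partial sum is an integer. -/
theorem exists_num (ha : ∀ k, 0 < a k) (n : ℕ) :
    ∃ m : ℤ, (m : ℝ) = ((∏ i ∈ range n, a i : ℕ) : ℝ) * ∑ i ∈ range n, 1 / (a i : ℝ) := by
  induction n with
  | zero => exact ⟨0, by simp⟩
  | succ n ih =>
    obtain ⟨m, hm⟩ := ih
    refine ⟨m * a n + ((∏ i ∈ range n, a i : ℕ) : ℤ), ?_⟩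
    have : (a n : ℝ) ≠ 0 := Nat.cast_ne_zero.2 (ha n).ne'
    rw [prod_range_succ, sum_range_succ]
    push_cast at hm ⊢
    rw [hm]
    field_simp

theorem tendsto_prod (ha : ∀ k, 0 < a k) (htwo : ∀ᶠ k in atTop, 2 ≤ a k) :
    Tendsto (fun k => ∏ i ∈ range k, a i) atTop atTop := by
  obtain ⟨K, hK⟩ := eventually_atTop.1 htwo
  refine tendsto_atTop_mono (f := fun k => k - K) (fun k => ?_) (tendsto_sub_atTop_nat K)
  rcases le_total k K with h | h
  · simp [Nat.sub_eq_zero_of_le h]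
  obtain ⟨j, rfl⟩ := Nat.exists_eq_add_of_le h
  rw [Nat.add_sub_cancel_left, prod_range_add]
  calc j ≤ 2 ^ j := Nat.lt_two_pow_self.le
    _ ≤ ∏ i ∈ range j, a (K + i) :=
        (le_of_eq (by simp)).trans (pow_card_le_prod _ _ 2 fun i _ => hK _ (Nat.le_add_right _ _))
    _ ≤ _ := Nat.le_mul_of_pos_left _ (prod_pos fun i _ => ha i)

/-- The growth makes the denominators double. -/
theorem eventually_double (ha : ∀ k, 0 < a k) (htwo : ∀ᶠ k in atTop, 2 ≤ a k) (hc : 0 < c)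
    (hκ : 1 < κ)
    (hgrow : ∀ᶠ k in atTop, c * ((∏ i ∈ range (k + 1), a i : ℕ) : ℝ) ^ κ ≤ a (k + 1)) :
    ∀ᶠ k in atTop, 2 * (a k : ℝ) ≤ a (k + 1) := by
  have hP := (tendsto_natCast_atTop_atTop (R := ℝ)).comp (tendsto_prod ha htwo)
  have hbig : ∀ᶠ k in atTop, 2 ≤ c * ((∏ i ∈ range (k + 1), a i : ℕ) : ℝ) ^ (κ - 1) :=
    (((tendsto_rpow_atTop (sub_pos.2 hκ)).comp (hP.comp (tendsto_add_atTop_nat 1))).const_mul_atTop
      hc).eventually_ge_atTop 2
  filter_upwards [hgrow, hbig] with k hk hk2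
  set P := ((∏ i ∈ range (k + 1), a i : ℕ) : ℝ) with hPdef
  have hP1 : (a k : ℝ) ≤ P := Nat.cast_le.2 (Nat.le_of_dvd (prod_pos fun i _ => ha i)
    (dvd_prod_of_mem a (mem_range.2 k.lt_succ_self)))
  have hP0 : 0 < P := (Nat.cast_pos.2 (ha k)).trans_le hP1
  calc 2 * (a k : ℝ) ≤ c * P ^ (κ - 1) * P :=
        mul_le_mul hk2 hP1 (Nat.cast_nonneg _) (mul_nonneg hc.le (Real.rpow_nonneg hP0.le _))
    _ = c * P ^ κ := by rw [mul_assoc, ← Real.rpow_add_one hP0.ne', sub_add_cancel]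
    _ ≤ _ := hk

/-- **The exponent of the sum.** -/
theorem liouvilleWith_tsum (ha : ∀ k, 0 < a k) (htwo : ∀ᶠ k in atTop, 2 ≤ a k) (hc : 0 < c)
    (hκ : 1 < κ)
    (hgrow : ∀ᶠ k in atTop, c * ((∏ i ∈ range (k + 1), a i : ℕ) : ℝ) ^ κ ≤ a (k + 1)) :
    Summable (fun k => 1 / (a k : ℝ)) ∧ LiouvilleWith κ (∑' k, 1 / (a k : ℝ)) := by
  obtain ⟨K, hK⟩ := eventually_atTop.1 (eventually_double ha htwo hc hκ hgrow)
  set f : ℕ → ℝ := fun k => 1 / (a k : ℝ)
  have hf0 : ∀ k, 0 < f k := fun k => one_div_pos.2 (Nat.cast_pos.2 (ha k))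
  have hgeo : ∀ k, K ≤ k → ∀ j, f (j + k) ≤ f k * (1 / 2) ^ j := fun k hk j => by
    induction j with
    | zero => simp
    | succ j ih =>
      rw [pow_succ, ← mul_assoc, Nat.succ_add]
      refine le_trans ?_ (mul_le_mul_of_nonneg_right ih (by norm_num))
      simp only [f, one_div_mul_one_div]
      refine one_div_le_one_div_of_le (mul_pos (Nat.cast_pos.2 (ha _)) two_pos) ?_
      rw [mul_comm]
      exact hK _ (by omega)
  have hhalf : HasSum (fun j : ℕ => ((1 : ℝ) / 2) ^ j) 2 := by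
    simpa using hasSum_geometric_two
  have hsum : ∀ k, K ≤ k → Summable fun j => f (j + k) := fun k hk =>
    (hhalf.mul_left (f k)).summable.of_nonneg_of_le (fun j => (hf0 _).le) (hgeo k hk)
  have hS : Summable f := (summable_nat_add_iff K).1 (hsum K le_rfl)
  refine ⟨hS, 3 / c, ?_⟩
  refine frequently_atTop.2 fun B => ?_
  obtain ⟨k, hk, hkB, hkK⟩ := (hgrow.and (((tendsto_prod ha htwo).comp
    (tendsto_add_atTop_nat 1)).eventually_ge_atTop B |>.and (eventually_ge_atTop K))).exists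
  obtain ⟨m, hm⟩ := exists_num ha (k + 1)
  set P := ∏ i ∈ range (k + 1), a i
  have hP : (0 : ℝ) < P := Nat.cast_pos.2 (prod_pos fun i _ => ha i)
  have hdiv : (m : ℝ) / P = ∑ i ∈ range (k + 1), f i := by
    rw [hm, mul_div_cancel_left₀ _ hP.ne']
  have hs := hsum (k + 1) (hkK.trans k.le_succ)
  have hsplit := hS.sum_add_tsum_nat_add (k + 1)
  have hpos : 0 < ∑' j, f (j + (k + 1)) := hs.tsum_pos (fun j => (hf0 _).le) 0 (hf0 _)
  have htail : ∑' j, f (j + (k + 1)) ≤ f (k + 1) * 2 :=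
    hasSum_le (hgeo (k + 1) (hkK.trans k.le_succ)) hs.hasSum (hhalf.mul_left _)
  refine ⟨P, hkB, m, ?_, ?_⟩
  · rw [hdiv]
    intro e
    linarith
  · rw [hdiv, abs_of_pos (by linarith)]
    refine lt_of_le_of_lt (show (∑' i, f i) - ∑ i ∈ range (k + 1), f i ≤ 2 / (a (k + 1) : ℝ) by
      rw [div_eq_mul_one_div]; linarith) ?_
    rw [div_div, div_lt_div_iff₀ (Nat.cast_pos.2 (ha _)) (by positivity)]
    have := mul_pos hc (Real.rpow_pos_of_pos hP κ)
    nlinarith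

/-- **The sum is transcendental for `κ > 2`.** -/
theorem transcendental_tsum (ha : ∀ k, 0 < a k) (htwo : ∀ᶠ k in atTop, 2 ≤ a k) (hc : 0 < c)
    (hκ : 2 < κ)
    (hgrow : ∀ᶠ k in atTop, c * ((∏ i ∈ range (k + 1), a i : ℕ) : ℝ) ^ κ ≤ a (k + 1)) :
    Transcendental ℚ (∑' k, 1 / (a k : ℝ)) :=
  transcendental_of_liouvilleWith hκ (liouvilleWith_tsum ha htwo hc (by linarith) hgrow).2

end FA.UnitSeries

end
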